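import Mathlib
import Fermat.Agent.Lib.Curve.PlaceBasic

/-!
# MAZUR (G), part NS (1): uniqueness of the place through a simple point of a plane model

`F/K` a field extension, `J, U ∈ F` with `F = Frac K[J, U]` and `P(U, J) = 0` for a polynomial
`P ∈ K[Y][X]`; `(U₁, j₁) ∈ K²` with `∂P/∂X (U₁, j₁) ≠ 0`.  Then there is at most one place `x` of
`F/K` with `J(x) = j₁`, `U(x) = U₁` (`mzgn_unique_of_simple`): the local ring of `K[J, U]` at
`(J - j₁, U - U₁)` is a discrete valuation ring with uniformiser `J - j₁`, in the elementary form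
"every nonzero `r ∈ K[J, U]` satisfies `r s = (J - j₁)^k t` with `s, t` units at the point"
(`mzgn_factor`).
-/

set_option autoImplicit false
set_option linter.unusedSectionVars false

namespace Fermat.Agent.Mazur

open AlgebraicCurve Fermat.Agent.Curve Fermat.Agent.Curve.PlaceAux

section Unique

variable {K F : Type*} [Field K] [Field F] [Algebra K F]
variable (J U : F) (j₁ U₁ : K)

/-- `r ≡ c` modulo the ideal `(J - j₁, U - U₁)` of `K[J, U]` -/
def MzgnCong (r : F) (c : K) : Prop :=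
  ∃ a ∈ Algebra.adjoin K {J, U}, ∃ b ∈ Algebra.adjoin K {J, U},
    r = algebraMap K F c + (J - algebraMap K F j₁) * a + (U - algebraMap K F U₁) * b

variable {J U j₁ U₁}

theorem MzgnCong.mem {r : F} {c : K} (h : MzgnCong J U j₁ U₁ r c) :
    r ∈ Algebra.adjoin K {J, U} := by
  obtain ⟨a, ha, b, hb, rfl⟩ := h
  have hJ : J ∈ Algebra.adjoin K {J, U} := Algebra.subset_adjoin (by simp)
  have hU : U ∈ Algebra.adjoin K {J, U} := Algebra.subset_adjoin (by simp)
  exact add_mem (add_mem (Subalgebra.algebraMap_mem _ _)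
    (mul_mem (sub_mem hJ (Subalgebra.algebraMap_mem _ _)) ha))
    (mul_mem (sub_mem hU (Subalgebra.algebraMap_mem _ _)) hb)

theorem MzgnCong.add {r r' : F} {c c' : K} (h : MzgnCong J U j₁ U₁ r c)
    (h' : MzgnCong J U j₁ U₁ r' c') : MzgnCong J U j₁ U₁ (r + r') (c + c') := by
  obtain ⟨a, ha, b, hb, rfl⟩ := h
  obtain ⟨a', ha', b', hb', rfl⟩ := h'
  refine ⟨a + a', add_mem ha ha', b + b', add_mem hb hb', ?_⟩
  rw [map_add]; ring

theorem MzgnCong.mul {r r' : F} {c c' : K} (h : MzgnCong J U j₁ U₁ r c)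
    (h' : MzgnCong J U j₁ U₁ r' c') : MzgnCong J U j₁ U₁ (r * r') (c * c') := by
  have hr' := h'.mem
  obtain ⟨a, ha, b, hb, rfl⟩ := h
  obtain ⟨a', ha', b', hb', h'eq⟩ := h'
  refine ⟨a * r' + algebraMap K F c * a', add_mem (mul_mem ha hr')
    (mul_mem (Subalgebra.algebraMap_mem _ _) ha'), b * r' + algebraMap K F c * b',
    add_mem (mul_mem hb hr') (mul_mem (Subalgebra.algebraMap_mem _ _) hb'), ?_⟩
  rw [map_mul]
  have : (algebraMap K F c + (J - algebraMap K F j₁) * a + (U - algebraMap K F U₁) * b) * r' =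
      algebraMap K F c * r' + (J - algebraMap K F j₁) * (a * r')
        + (U - algebraMap K F U₁) * (b * r') := by ring
  rw [this]
  nth_rewrite 1 [h'eq]
  ring

theorem MzgnCong.const (c : K) : MzgnCong J U j₁ U₁ (algebraMap K F c) c :=
  ⟨0, zero_mem _, 0, zero_mem _, by ring⟩

/-- every element of `K[J, U]` is congruent to a constant -/
theorem mzgn_exists_cong {r : F} (hr : r ∈ Algebra.adjoin K {J, U}) :
    ∃ c : K, MzgnCong J U j₁ U₁ r c := by
  induction hr using Algebra.adjoin_induction with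
  | mem x hx =>
    rcases hx with rfl | hx
    · exact ⟨j₁, 1, one_mem _, 0, zero_mem _, by ring⟩
    · rw [Set.mem_singleton_iff] at hx
      subst hx
      exact ⟨U₁, 0, zero_mem _, 1, one_mem _, by ring⟩
  | algebraMap c => exact ⟨c, MzgnCong.const c⟩
  | add x y _ _ hx hy =>
    obtain ⟨c, hc⟩ := hx
    obtain ⟨c', hc'⟩ := hy
    exact ⟨c + c', hc.add hc'⟩
  | mul x y _ _ hx hy =>
    obtain ⟨c, hc⟩ := hx
    obtain ⟨c', hc'⟩ := hy
    exact ⟨c * c', hc.mul hc'⟩

section Ord

variable (x : Place K F) (hJ : 0 < x.ord (J - algebraMap K F j₁))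
  (hU : 0 < x.ord (U - algebraMap K F U₁))

include hJ hU

/-- `K[J, U]` lies in the valuation ring of `x` -/
theorem mzgn_adjoin_mem {r : F} (hr : r ∈ Algebra.adjoin K {J, U}) :
    r ∈ x.toValuationSubring := by
  have h1 : J ∈ x.toValuationSubring := by
    have : J = algebraMap K F j₁ + (J - algebraMap K F j₁) := by ring
    rw [this]
    exact add_mem (x.algebraMap_mem' _) (mem_of_ord_nonneg x hJ.le)
  have h2 : U ∈ x.toValuationSubring := by
    have : U = algebraMap K F U₁ + (U - algebraMap K F U₁) := by ring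
    rw [this]
    exact add_mem (x.algebraMap_mem' _) (mem_of_ord_nonneg x hU.le)
  induction hr using Algebra.adjoin_induction with
  | mem y hy =>
    rcases hy with rfl | hy
    · exact h1
    · rw [Set.mem_singleton_iff] at hy
      subst hy
      exact h2
  | algebraMap c => exact x.algebraMap_mem' c
  | add y z _ _ hy hz => exact add_mem hy hz
  | mul y z _ _ hy hz => exact mul_mem hy hz

/-- the non-constant part has order `≥ 1` -/
theorem mzgn_ordGE_one {a b : F} (ha : a ∈ Algebra.adjoin K {J, U})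
    (hb : b ∈ Algebra.adjoin K {J, U}) :
    OrdGE x ((J - algebraMap K F j₁) * a + (U - algebraMap K F U₁) * b) 1 := by
  have h1 : OrdGE x (J - algebraMap K F j₁) 1 := (ordGE_iff x).mpr (Or.inr (by omega))
  have h2 : OrdGE x (U - algebraMap K F U₁) 1 := (ordGE_iff x).mpr (Or.inr (by omega))
  have ha' : OrdGE x a 0 := (ordGE_zero_iff_mem x).mpr (mzgn_adjoin_mem x hJ hU ha)
  have hb' : OrdGE x b 0 := (ordGE_zero_iff_mem x).mpr (mzgn_adjoin_mem x hJ hU hb)
  have := (h1.mul x ha').add x (h2.mul x hb')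
  simpa using this

/-- an element congruent to a nonzero constant is a unit at `x` -/
theorem mzgn_ord_eq_zero {r : F} {c : K} (h : MzgnCong J U j₁ U₁ r c) (hc : c ≠ 0) :
    r ≠ 0 ∧ x.ord r = 0 := by
  obtain ⟨a, ha, b, hb, rfl⟩ := h
  have hm := mzgn_ordGE_one x hJ hU ha hb
  set m := (J - algebraMap K F j₁) * a + (U - algebraMap K F U₁) * b with hmdef
  have hcF : algebraMap K F c ≠ 0 := by
    rw [Ne, map_eq_zero_iff _ (algebraMap K F).injective]; exact hc
  have hc0 : x.ord (algebraMap K F c) = 0 := ord_algebraMap x c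
  rw [add_assoc, ← hmdef]
  rcases (ordGE_iff x).mp hm with h0 | h1
  · rw [h0, add_zero]
    exact ⟨hcF, hc0⟩
  · have hlt : x.ord (algebraMap K F c) < x.ord m := by omega
    have h2 := ord_add_of_lt x hcF hlt
    refine ⟨?_, by rw [h2, hc0]⟩
    intro h3
    have hm' : m = -algebraMap K F c := by linear_combination h3
    have hneg : x.ord (-algebraMap K F c) = x.ord (algebraMap K F c) := by
      simp only [Place.ord, Valuation.map_neg]
    rw [hm', hneg, hc0] at h1
    omega

/-- an element congruent to `0` vanishes at `x` -/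
theorem mzgn_ord_pos {r : F} (h : MzgnCong J U j₁ U₁ r 0) (hr : r ≠ 0) : 0 < x.ord r := by
  obtain ⟨a, ha, b, hb, rfl⟩ := h
  have hm := mzgn_ordGE_one x hJ hU ha hb
  rw [map_zero, zero_add] at hr ⊢
  rcases (ordGE_iff x).mp hm with h0 | h1
  · exact absurd h0 hr
  · omega

end Ord

section Factor

variable {w B : F} {cw : K} (hw : MzgnCong J U j₁ U₁ w cw) (hcw : cw ≠ 0)
  (hB : B ∈ Algebra.adjoin K {J, U})
  (hrel : (U - algebraMap K F U₁) * w = (J - algebraMap K F j₁) * B)
  (x : Place K F) (hJ : 0 < x.ord (J - algebraMap K F j₁))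
  (hU : 0 < x.ord (U - algebraMap K F U₁))

include hw hcw hB hrel hJ hU

/-- at a simple point, every nonzero element of `K[J, U]` is, up to units of the local ring, a
power of `J - j₁` -/
theorem mzgn_factor : ∀ (n : ℕ) (r : F), r ∈ Algebra.adjoin K {J, U} → r ≠ 0 → x.ord r = n →
    ∃ (k : ℕ) (s t : F) (cs ct : K), cs ≠ 0 ∧ ct ≠ 0 ∧ MzgnCong J U j₁ U₁ s cs ∧
      MzgnCong J U j₁ U₁ t ct ∧ r * s = (J - algebraMap K F j₁) ^ k * t := by
  intro n
  induction n using Nat.strong_induction_on with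
  | _ n ih =>
  intro r hr hr0 hord
  obtain ⟨c, hc⟩ := mzgn_exists_cong (j₁ := j₁) (U₁ := U₁) hr
  by_cases hc0 : c = 0
  · subst hc0
    obtain ⟨a, ha, b, hb, hrab⟩ := hc
    rw [map_zero, zero_add] at hrab
    have hwmem := hw.mem
    obtain ⟨hw0, hwo⟩ := mzgn_ord_eq_zero x hJ hU hw hcw
    set r₁ := a * w + B * b with hr₁
    have hr₁mem : r₁ ∈ Algebra.adjoin K {J, U} :=
      add_mem (mul_mem ha hwmem) (mul_mem hB hb)
    have hmul : r * w = (J - algebraMap K F j₁) * r₁ := by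
      rw [hrab, hr₁]
      linear_combination b * hrel
    have hJ0 : J - algebraMap K F j₁ ≠ 0 := by
      intro h0
      rw [h0, x.ord_zero] at hJ
      exact lt_irrefl _ hJ
    have hr₁0 : r₁ ≠ 0 := by
      intro h0
      rw [h0, mul_zero] at hmul
      exact mul_ne_zero hr0 hw0 hmul
    have hordeq : x.ord r + x.ord w = x.ord (J - algebraMap K F j₁) + x.ord r₁ := by
      rw [← x.ord_mul hr0 hw0, ← x.ord_mul hJ0 hr₁0, hmul]
    have hr₁nn : 0 ≤ x.ord r₁ := ord_nonneg_of_mem x (mzgn_adjoin_mem x hJ hU hr₁mem)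
    have hlt : (x.ord r₁).toNat < n := by
      have : x.ord r₁ < n := by omega
      omega
    obtain ⟨k₁, s₁, t₁, cs₁, ct₁, hcs₁, hct₁, hs₁, ht₁, heq₁⟩ :=
      ih (x.ord r₁).toNat hlt r₁ hr₁mem hr₁0 (by omega)
    refine ⟨k₁ + 1, w * s₁, t₁, cw * cs₁, ct₁, mul_ne_zero hcw hcs₁, hct₁, hw.mul hs₁, ht₁, ?_⟩
    rw [pow_succ]
    linear_combination s₁ * hmul + (J - algebraMap K F j₁) * heq₁
  · refine ⟨0, 1, r, 1, c, one_ne_zero, hc0, ?_, hc, by ring⟩
    have := MzgnCong.const (J := J) (U := U) (j₁ := j₁) (U₁ := U₁) (1 : K)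
    rwa [map_one] at this

end Factor

section Main

variable {w B : F} {cw : K} (hw : MzgnCong J U j₁ U₁ w cw) (hcw : cw ≠ 0)
  (hB : B ∈ Algebra.adjoin K {J, U})
  (hrel : (U - algebraMap K F U₁) * w = (J - algebraMap K F j₁) * B)
  (hgen : ∀ f : F, ∃ a ∈ Algebra.adjoin K {J, U}, ∃ b ∈ Algebra.adjoin K {J, U},
    b ≠ 0 ∧ f = a / b)
  (x x' : Place K F) (hJ : 0 < x.ord (J - algebraMap K F j₁))
  (hU : 0 < x.ord (U - algebraMap K F U₁))
  (hJ' : 0 < x'.ord (J - algebraMap K F j₁))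
  (hU' : 0 < x'.ord (U - algebraMap K F U₁))

include hw hcw hB hrel hJ hU hJ' hU'

theorem mzgn_ord_eq {r : F} (hr : r ∈ Algebra.adjoin K {J, U}) (hr0 : r ≠ 0) :
    ∃ k : ℕ, x.ord r = k * x.ord (J - algebraMap K F j₁) ∧
      x'.ord r = k * x'.ord (J - algebraMap K F j₁) := by
  have hnn : 0 ≤ x.ord r := ord_nonneg_of_mem x (mzgn_adjoin_mem x hJ hU hr)
  obtain ⟨k, s, t, cs, ct, hcs, hct, hs, ht, heq⟩ :=
    mzgn_factor hw hcw hB hrel x hJ hU (x.ord r).toNat r hr hr0 (by omega)
  have hJ0 : J - algebraMap K F j₁ ≠ 0 := by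
    intro h0
    rw [h0, x.ord_zero] at hJ
    exact lt_irrefl _ hJ
  refine ⟨k, ?_, ?_⟩
  · obtain ⟨hs0, hso⟩ := mzgn_ord_eq_zero x hJ hU hs hcs
    obtain ⟨ht0, hto⟩ := mzgn_ord_eq_zero x hJ hU ht hct
    have := congrArg x.ord heq
    rw [x.ord_mul hr0 hs0, x.ord_mul (pow_ne_zero k hJ0) ht0, hso, hto, ← zpow_natCast,
      x.ord_zpow] at this
    simpa using this
  · obtain ⟨hs0, hso⟩ := mzgn_ord_eq_zero x' hJ' hU' hs hcs
    obtain ⟨ht0, hto⟩ := mzgn_ord_eq_zero x' hJ' hU' ht hct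
    have := congrArg x'.ord heq
    rw [x'.ord_mul hr0 hs0, x'.ord_mul (pow_ne_zero k hJ0) ht0, hso, hto, ← zpow_natCast,
      x'.ord_zpow] at this
    simpa using this

include hgen

/-- **Uniqueness of the place through a simple point** of the plane model `K[J, U]`. -/
theorem mzgn_place_unique : x = x' := by
  apply eq_of_le
  intro f hf
  by_cases hf0 : f = 0
  · rw [hf0]; exact zero_mem _
  obtain ⟨a, ha, b, hb, hb0, rfl⟩ := hgen f
  have ha0 : a ≠ 0 := by
    rintro rfl
    exact hf0 (zero_div b)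
  obtain ⟨ka, ha1, ha2⟩ := mzgn_ord_eq hw hcw hB hrel x x' hJ hU hJ' hU' ha ha0
  obtain ⟨kb, hb1, hb2⟩ := mzgn_ord_eq hw hcw hB hrel x x' hJ hU hJ' hU' hb hb0
  have hord : ∀ y : Place K F, y.ord (a / b) = y.ord a - y.ord b := by
    intro y
    rw [div_eq_mul_inv, y.ord_mul ha0 (inv_ne_zero hb0), y.ord_inv]
    ring
  have h1 : 0 ≤ x.ord (a / b) := ord_nonneg_of_mem x hf
  rw [hord, ha1, hb1] at h1
  apply mem_of_ord_nonneg
  rw [hord, ha2, hb2]
  have hk : (kb : ℤ) ≤ ka := by
    by_contra hlt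
    rw [not_le] at hlt
    have : (ka : ℤ) * x.ord (J - algebraMap K F j₁) < kb * x.ord (J - algebraMap K F j₁) :=
      mul_lt_mul_of_pos_right hlt hJ
    omega
  have := mul_le_mul_of_nonneg_right hk hJ'.le
  omega

end Main

end Unique

section Taylor

open Polynomial

variable {K F : Type*} [Field K] [Field F] [Algebra K F]

/-- first order Taylor expansion of a polynomial in one variable -/
theorem mzgn_aeval_sub (c : K[X]) (y : F) (a : K) :
    ∃ d : K[X], aeval y c - algebraMap K F (c.eval a) = (y - algebraMap K F a) * aeval y d ∧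
      d.eval a = c.derivative.eval a := by
  obtain ⟨d, hd⟩ := X_sub_C_dvd_sub_C_eval (p := c) (a := a)
  refine ⟨d, ?_, ?_⟩
  · have := congrArg (aeval y) hd
    simpa using this
  · have h1 : c = (X - C a) * d + C (c.eval a) := by rw [← hd]; ring
    have h2 := congrArg (fun p => (derivative p).eval a) h1
    simp only [derivative_add, derivative_mul, derivative_sub, derivative_X, derivative_C,
      sub_zero, one_mul, eval_add, eval_mul, eval_sub, eval_X, eval_C, sub_self, zero_mul,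
      add_zero] at h2
    exact h2.symm

theorem mzgn_aeval_mem {S : Subalgebra K F} {y : F} (hy : y ∈ S) (c : K[X]) : aeval y c ∈ S := by
  induction c using Polynomial.induction_on' with
  | add p q hp hq => rw [map_add]; exact add_mem hp hq
  | monomial n a =>
    rw [aeval_monomial]
    exact mul_mem (S.algebraMap_mem a) (pow_mem hy n)

variable (J U : F) (j₁ U₁ : K)

/-- specialising the inner variable: `Q(U, J) - Q(U, j₁) ∈ (J - j₁) K[J, U]` -/
theorem mzgn_specialise (Q : K[X][X]) :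
    ∃ B ∈ Algebra.adjoin K {J, U},
      (Q.map ((aeval J : K[X] →ₐ[K] F) : K[X] →+* F)).eval U
        - aeval U (Q.map (evalRingHom j₁)) = (J - algebraMap K F j₁) * B := by
  have hJmem : J ∈ Algebra.adjoin K {J, U} := Algebra.subset_adjoin (by simp)
  have hUmem : U ∈ Algebra.adjoin K {J, U} := Algebra.subset_adjoin (by simp)
  induction Q using Polynomial.induction_on' with
  | add p q hp hq =>
    obtain ⟨B₁, hB₁, h₁⟩ := hp
    obtain ⟨B₂, hB₂, h₂⟩ := hq
    refine ⟨B₁ + B₂, add_mem hB₁ hB₂, ?_⟩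
    rw [Polynomial.map_add, eval_add, Polynomial.map_add, map_add, mul_add, ← h₁, ← h₂]
    ring
  | monomial n c =>
    obtain ⟨d, hd, -⟩ := mzgn_aeval_sub c J j₁
    refine ⟨aeval J d * U ^ n, mul_mem (mzgn_aeval_mem hJmem d) (pow_mem hUmem n), ?_⟩
    rw [map_monomial, eval_monomial, map_monomial, aeval_monomial]
    have : ((aeval J : K[X] →ₐ[K] F) : K[X] →+* F) c = aeval J c := rfl
    rw [this]
    have h2 : (evalRingHom j₁) c = c.eval j₁ := rfl
    rw [h2]
    linear_combination U ^ n * hd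

variable {J U j₁ U₁}

/-- **The local equation at a simple point**: from `P(U, J) = 0` and `∂P/∂X (U₁, j₁) ≠ 0`. -/
theorem mzgn_exists_rel (P : K[X][X])
    (hP : (P.map ((aeval J : K[X] →ₐ[K] F) : K[X] →+* F)).eval U = 0)
    (hsimple : (derivative (P.map (evalRingHom j₁))).eval U₁ ≠ 0)
    (x : Place K F) (hJ : 0 < x.ord (J - algebraMap K F j₁))
    (hU : 0 < x.ord (U - algebraMap K F U₁)) :
    ∃ (w B : F) (cw : K), cw ≠ 0 ∧ MzgnCong J U j₁ U₁ w cw ∧ B ∈ Algebra.adjoin K {J, U} ∧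
      (U - algebraMap K F U₁) * w = (J - algebraMap K F j₁) * B := by
  have hUmem : U ∈ Algebra.adjoin K {J, U} := Algebra.subset_adjoin (by simp)
  set p₁ := P.map (evalRingHom j₁) with hp₁
  obtain ⟨B₀, hB₀, h0⟩ := mzgn_specialise J U j₁ P
  rw [hP, ← hp₁] at h0
  obtain ⟨q, hq, hqd⟩ := mzgn_aeval_sub p₁ U U₁
  obtain ⟨q₂, hq₂, -⟩ := mzgn_aeval_sub q U U₁
  have hwc : MzgnCong J U j₁ U₁ (aeval U q) (q.eval U₁) :=
    ⟨0, zero_mem _, aeval U q₂, mzgn_aeval_mem hUmem q₂, by linear_combination hq₂⟩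
  have hcw : q.eval U₁ ≠ 0 := by rw [hqd]; exact hsimple
  -- the constant term vanishes
  have hconst : algebraMap K F (p₁.eval U₁) =
      -((J - algebraMap K F j₁) * B₀ + (U - algebraMap K F U₁) * aeval U q) := by
    linear_combination -h0 - hq
  have hzero : p₁.eval U₁ = 0 := by
    by_contra hne
    have hge := mzgn_ordGE_one x hJ hU hB₀ hwc.mem
    have hge' := hge.neg x
    rw [← hconst] at hge'
    have hcF : algebraMap K F (p₁.eval U₁) ≠ 0 := by
      rw [Ne, map_eq_zero_iff _ (algebraMap K F).injective]; exact hne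
    rcases (ordGE_iff x).mp hge' with h | h
    · exact hcF h
    · rw [ord_algebraMap] at h
      omega
  refine ⟨aeval U q, -B₀, q.eval U₁, hcw, hwc, neg_mem hB₀, ?_⟩
  rw [hzero, map_zero] at hconst
  linear_combination hconst

/-- **Uniqueness of the place through a simple point of a plane model.**  `F = Frac K[J, U]`,
`P(U, J) = 0`, `(U₁, j₁)` a point with `∂P/∂X (U₁, j₁) ≠ 0`: there is at most one place of `F`
at which `J = j₁` and `U = U₁`. -/
theorem mzgn_unique_of_simple (P : K[X][X])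
    (hP : (P.map ((aeval J : K[X] →ₐ[K] F) : K[X] →+* F)).eval U = 0)
    (hsimple : (derivative (P.map (evalRingHom j₁))).eval U₁ ≠ 0)
    (hgen : ∀ f : F, ∃ a ∈ Algebra.adjoin K {J, U}, ∃ b ∈ Algebra.adjoin K {J, U},
      b ≠ 0 ∧ f = a / b)
    (x x' : Place K F) (hJ : 0 < x.ord (J - algebraMap K F j₁))
    (hU : 0 < x.ord (U - algebraMap K F U₁))
    (hJ' : 0 < x'.ord (J - algebraMap K F j₁))
    (hU' : 0 < x'.ord (U - algebraMap K F U₁)) : x = x' := by
  obtain ⟨w, B, cw, hcw, hw, hB, hrel⟩ := mzgn_exists_rel P hP hsimple x hJ hU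
  exact mzgn_place_unique hw hcw hB hrel hgen x x' hJ hU hJ' hU'

end Taylor

end Fermat.Agent.Mazur
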