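import Mathlib
import Fermat.Agent.Lib.Mazur.G.Pl.Place
import Fermat.Agent.Lib.Mazur.G.Ns.Unique
import Fermat.Agent.Lib.S24.Count
import Fermat.Agent.Lib.Igusa.RootStruct
import Fermat.Agent.Lib.Igusa.PsiStep

/-!
# MAZUR (G), part NS (2): rational simple points give Galois-fixed places

* `mzgn_modPsi_eval`: `Ψ_p(U_p, j) = 0` in `modularFunctionFieldBar p`.
* `mzgn_gen`: `modularFunctionFieldBar p = Frac ℚ̄[j, U_p]` (degree count: `[F̄_p : ℚ̄(j)] = p + 1`
  from S24 and the irreducibility of `Ψ_p(X, j)` from Igusa/RootStruct).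
* `mzgn_galois_fixed`: a place `x` with `j(x) = j₁`, `U_p(x) = U₁`, `j₁, U₁` fixed by `G_ℚ` and
  `∂Ψ_p/∂X (U₁, j₁) ≠ 0`, is fixed by the arithmetic Galois action.
-/

set_option autoImplicit false
set_option linter.unusedSectionVars false
set_option linter.style.haveILetI false
set_option synthInstance.maxHeartbeats 200000

namespace Fermat.Agent.Mazur

open ModularCurve Polynomial IntermediateField
open AlgebraicCurve Fermat.Agent.Curve Fermat.Agent.Igusa Fermat.Agent.T1

local notation "Qb" => AlgebraicClosure ℚ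

section Gen

variable (p : ℕ) [NeZero p]

/-- the underlying Laurent series of `U_p` -/
theorem mzgn_coe_U :
    ((mzgpU p : ↥(modularFunctionFieldBar p)) : LaurentSeries Qb) = unitInfLS Qb p := by
  rw [coe_mzgpU, ← lsMapHom_unitInfLS (algebraMap ℚ Qb) p]
  rfl

/-- `Ψ_p(U_p, j) = 0` in the function field of `X₀(p)` -/
theorem mzgn_modPsi_eval (hp : p.Prime) :
    ((modPsiK p hp Qb).map ((aeval (tbJ p) : Qb[X] →ₐ[Qb] ↥(modularFunctionFieldBar p)) :
      Qb[X] →+* ↥(modularFunctionFieldBar p))).eval (mzgpU p) = 0 := by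
  apply Subtype.val_injective
  have h := modPsiK_eval_left p hp (K := Qb)
  have hcomp : ((modularFunctionFieldBar p).val : ↥(modularFunctionFieldBar p) →+* LaurentSeries Qb).comp
      ((aeval (tbJ p) : Qb[X] →ₐ[Qb] ↥(modularFunctionFieldBar p)) : Qb[X] →+* _) = evalJ Qb := by
    apply Polynomial.ringHom_ext
    · intro c
      simp only [RingHom.coe_comp, Function.comp_apply, RingHom.coe_coe, aeval_C, evalJ_C]
      show ((algebraMap Qb ↥(modularFunctionFieldBar p) c : ↥(modularFunctionFieldBar p)) :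
        LaurentSeries Qb) = _
      rw [IntermediateField.coe_algebraMap_apply]  
      exact algebraMap_laurentSeries_eq_single Qb c
    · simp only [RingHom.coe_comp, Function.comp_apply, RingHom.coe_coe, aeval_X, evalJ_X]
      rfl
  show ((modularFunctionFieldBar p).val : ↥(modularFunctionFieldBar p) →+* LaurentSeries Qb) _ = 0
  rw [← Polynomial.eval₂_eq_eval_map, Polynomial.hom_eval₂, hcomp]
  show Polynomial.eval₂ (evalJ Qb) ((mzgpU p : ↥(modularFunctionFieldBar p)) : LaurentSeries Qb) _ = 0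
  rw [mzgn_coe_U]
  exact h

theorem mzgn_tbJ_eq : tbJ p = Fermat.Agent.S24Lib.jBar p := rfl

/-- `[F̄_p : ℚ̄(j)] = p + 1` -/
theorem mzgn_finrank (hp : p.Prime) :
    Module.finrank ↥(Qb⟮tbJ p⟯) ↥(modularFunctionFieldBar p) = p + 1 := by
  rw [mzgn_tbJ_eq, Fermat.Agent.S24Lib.finrank_jBar, igPsi_prime hp]

theorem mzgn_finiteDimensional (hp : p.Prime) :
    FiniteDimensional ↥(Qb⟮tbJ p⟯) ↥(modularFunctionFieldBar p) := by
  apply FiniteDimensional.of_finrank_pos
  rw [mzgn_finrank p hp]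
  omega

section Sub

/-- the substitution `q ↦ q ^ p` -/
noncomputable def mzgnSub : LaurentSeries Qb →+* LaurentSeries Qb :=
  haveI : NeZero (1 * p) := ⟨by simpa using NeZero.ne p⟩
  pzSub ((1 : Qbˣ) ^ p) (1 * p)

theorem mzgnSub_injective : Function.Injective (mzgnSub p) := by
  haveI : NeZero (1 * p) := ⟨by simpa using NeZero.ne p⟩
  exact pzSub_injective _ _

theorem mzgnSub_C (c : Qb) : mzgnSub p (HahnSeries.C c) = HahnSeries.C c := by
  haveI : NeZero (1 * p) := ⟨by simpa using NeZero.ne p⟩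
  exact pzSub_C _ _ c

/-- `ℚ̄(j)` is mapped into `ℚ̄(j(q^p))` -/
theorem mzgnSub_mem {a : ↥(modularFunctionFieldBar p)} (ha : a ∈ Qb⟮tbJ p⟯) :
    mzgnSub p (a : LaurentSeries Qb) ∈ pzField (mzgnSub p (jqModC Qb)) := by
  induction ha using IntermediateField.adjoin_induction with
  | mem x hx =>
    rw [Set.mem_singleton_iff] at hx
    subst hx
    exact self_mem_pzField _
  | algebraMap c =>
    have : ((algebraMap Qb ↥(modularFunctionFieldBar p) c : ↥(modularFunctionFieldBar p)) :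
        LaurentSeries Qb) = HahnSeries.C c := by
      rw [IntermediateField.coe_algebraMap_apply]
      exact algebraMap_laurentSeries_eq_single Qb c
    rw [this, mzgnSub_C]
    exact C_mem_pzField _ c
  | add x y _ _ hx hy =>
    rw [IntermediateField.coe_add, map_add]; exact add_mem hx hy
  | mul x y _ _ hx hy =>
    rw [IntermediateField.coe_mul, map_mul]; exact mul_mem hx hy
  | inv x _ hx =>
    rw [IntermediateField.coe_inv, map_inv₀]; exact inv_mem hx

/-- the induced map `ℚ̄(j) → ℚ̄(j(q^p))` -/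
noncomputable def mzgnSubK : ↥(Qb⟮tbJ p⟯) →+* ↥(pzField (mzgnSub p (jqModC Qb))) where
  toFun a := ⟨mzgnSub p ((a : ↥(modularFunctionFieldBar p)) : LaurentSeries Qb),
    mzgnSub_mem p a.2⟩
  map_one' := Subtype.ext (by simp)
  map_mul' a b := Subtype.ext (by simp)
  map_zero' := Subtype.ext (by simp)
  map_add' a b := Subtype.ext (by simp)

theorem mzgnSubK_coe (a : ↥(Qb⟮tbJ p⟯)) :
    ((mzgnSubK p a : ↥(pzField (mzgnSub p (jqModC Qb)))) : LaurentSeries Qb) =
      mzgnSub p ((a : ↥(modularFunctionFieldBar p)) : LaurentSeries Qb) := rfl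

/-- the minimal polynomial of `U_p` over `ℚ̄(j)` has degree at least `p + 1` -/
theorem mzgn_le_natDegree_minpoly (hp : p.Prime) :
    p + 1 ≤ (minpoly ↥(Qb⟮tbJ p⟯) (mzgpU p)).natDegree := by
  haveI : NeZero (1 * p) := ⟨by simpa using NeZero.ne p⟩
  haveI := mzgn_finiteDimensional p hp
  obtain ⟨ζ₀, hζ₀⟩ := HasEnoughRootsOfUnity.exists_primitiveRoot Qb p
  have hζ0 : ζ₀ ≠ 0 := hζ₀.ne_zero (NeZero.ne p)
  set ζ : Qbˣ := Units.mk0 ζ₀ hζ0 with hζdef
  have hζ : IsPrimitiveRoot ζ p := IsPrimitiveRoot.coe_units_iff.mp (by simpa [hζdef] using hζ₀)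
  obtain ⟨-, hmin, -⟩ := modPsiK_prime_level p hp (k := Qb) hζ (1 : Qbˣ) 1 ζ (pow_one ζ)
  have hint : IsIntegral ↥(Qb⟮tbJ p⟯) (mzgpU p) := IsIntegral.of_finite _ _
  have hm_monic := minpoly.monic hint
  set m := minpoly ↥(Qb⟮tbJ p⟯) (mzgpU p) with hm
  have hroot : Polynomial.aeval (mzgnSub p (unitInfLS Qb p)) (m.map (mzgnSubK p)) = 0 := by
    rw [Polynomial.aeval_def, Polynomial.eval₂_map]
    have hcomp : (algebraMap ↥(pzField (mzgnSub p (jqModC Qb))) (LaurentSeries Qb)).comp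
        (mzgnSubK p) = ((mzgnSub p).comp ((modularFunctionFieldBar p).val :
          ↥(modularFunctionFieldBar p) →+* LaurentSeries Qb)).comp
          (algebraMap ↥(Qb⟮tbJ p⟯) ↥(modularFunctionFieldBar p)) := rfl
    rw [hcomp, ← mzgn_coe_U]
    have h1 := Polynomial.hom_eval₂ m (algebraMap ↥(Qb⟮tbJ p⟯) ↥(modularFunctionFieldBar p))
      ((mzgnSub p).comp ((modularFunctionFieldBar p).val :
          ↥(modularFunctionFieldBar p) →+* LaurentSeries Qb)) (mzgpU p)
    have h2 : Polynomial.eval₂ (algebraMap ↥(Qb⟮tbJ p⟯) ↥(modularFunctionFieldBar p))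
        (mzgpU p) m = 0 := by
      rw [← Polynomial.aeval_def, hm]
      exact minpoly.aeval _ _
    rw [h2, map_zero] at h1
    exact h1.symm
  have hdvd := minpoly.dvd _ _ hroot
  have hdeg : (minpoly ↥(pzField (mzgnSub p (jqModC Qb))) (mzgnSub p (unitInfLS Qb p))).natDegree
      = p + 1 := by
    show (minpoly ↥(pzField (pzSub ((1 : Qbˣ) ^ p) (1 * p) (jqModC Qb)))
      (pzSub ((1 : Qbˣ) ^ p) (1 * p) (unitInfLS Qb p))).natDegree = p + 1
    rw [hmin, (modPsiK_monic p hp Qb).natDegree_map, modPsiK_natDegree]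
  have h3 := Polynomial.natDegree_le_of_dvd hdvd (hm_monic.map (mzgnSubK p)).ne_zero
  rw [hdeg, hm_monic.natDegree_map] at h3
  exact h3

/-- `F̄_p = ℚ̄(j)(U_p)` -/
theorem mzgn_adjoin_U_eq_top (hp : p.Prime) :
    (Qb⟮tbJ p⟯)⟮mzgpU p⟯ = ⊤ := by
  haveI := mzgn_finiteDimensional p hp
  rw [Field.primitive_element_iff_minpoly_natDegree_eq, mzgn_finrank p hp]
  refine le_antisymm ?_ (mzgn_le_natDegree_minpoly p hp)
  have := minpoly.natDegree_le (A := ↥(Qb⟮tbJ p⟯)) (x := mzgpU p)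
  rwa [mzgn_finrank p hp] at this

/-- **(GEN)** every element of `F̄_p` is a quotient of elements of `ℚ̄[j, U_p]` -/
theorem mzgn_gen (hp : p.Prime) (f : ↥(modularFunctionFieldBar p)) :
    ∃ a ∈ Algebra.adjoin Qb {tbJ p, mzgpU p}, ∃ b ∈ Algebra.adjoin Qb {tbJ p, mzgpU p},
      b ≠ 0 ∧ f = a / b := by
  have h1 := IntermediateField.adjoin_adjoin_left Qb ({tbJ p} : Set ↥(modularFunctionFieldBar p))
    {mzgpU p}
  rw [mzgn_adjoin_U_eq_top p hp] at h1
  have hf : f ∈ IntermediateField.adjoin Qb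
      (({tbJ p} : Set ↥(modularFunctionFieldBar p)) ∪ {mzgpU p}) := by
    rw [← h1]
    exact IntermediateField.mem_top
  have hset : (({tbJ p} : Set ↥(modularFunctionFieldBar p)) ∪ {mzgpU p}) = {tbJ p, mzgpU p} := by
    ext y
    simp only [Set.union_singleton, Set.mem_insert_iff, Set.mem_singleton_iff]
    tauto
  rw [hset] at hf
  obtain ⟨r, hr, s, hs, hfrs⟩ := IntermediateField.mem_adjoin_iff_div.mp hf
  by_cases hs0 : s = 0
  · refine ⟨0, zero_mem _, 1, one_mem _, one_ne_zero, ?_⟩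
    rw [hfrs, hs0, div_zero, zero_div]
  · exact ⟨r, hr, s, hs, hs0, hfrs⟩

end Sub

end Gen

section Galois

local notation "GQ" => (AlgebraicClosure ℚ ≃ₐ[ℚ] AlgebraicClosure ℚ)

variable (p : ℕ) [NeZero p]

theorem mzgn_smul_tbJ (σ : GQ) :
    arithmeticGalois (modularFunctionFieldFull p) σ • tbJ p = tbJ p := by
  apply Subtype.ext
  rw [coe_arithmeticGalois_smul, coe_tbJ, coeffMap_jqModC]

theorem mzgn_smul_U (σ : GQ) :
    arithmeticGalois (modularFunctionFieldFull p) σ • mzgpU p = mzgpU p := by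
  apply Subtype.ext
  rw [coe_arithmeticGalois_smul, coe_mzgpU, coeffMap_coeffEmb]

theorem mzgn_smul_sub_const (σ : GQ) (y : ↥(modularFunctionFieldBar p))
    (hy : arithmeticGalois (modularFunctionFieldFull p) σ • y = y) (c : Qb) (hc : σ c = c) :
    arithmeticGalois (modularFunctionFieldFull p) σ •
      (y - algebraMap Qb ↥(modularFunctionFieldBar p) c) =
      y - algebraMap Qb ↥(modularFunctionFieldBar p) c := by
  rw [smul_sub, hy, SemilinearAut.smul_algebraMap]
  congr 2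

/-- the simplicity hypothesis in `evalEval` form -/
theorem mzgn_simple_eq {K : Type*} [Field K] (P : K[X][X]) (j₁ U₁ : K) :
    (derivative (P.map (evalRingHom j₁))).eval U₁ = evalEval j₁ U₁ (derivative P) := by
  rw [derivative_map, eval_map, eval₂_evalRingHom]

/-- **(NS)** a place of `X₀(p)` over `ℚ̄` through a `ℚ`-rational simple point of the plane model
`Ψ_p(U, j) = 0` is fixed by the arithmetic Galois action. -/
theorem mzgn_galois_fixed (hp : p.Prime) (j₁ U₁ : Qb)
    (hj : ∀ σ : GQ, σ j₁ = j₁) (hU : ∀ σ : GQ, σ U₁ = U₁)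
    (hsimple : (derivative ((modPsiK p hp Qb).map (evalRingHom j₁))).eval U₁ ≠ 0)
    (x : Place Qb ↥(modularFunctionFieldBar p))
    (hxj : 0 < x.ord (tbJ p - algebraMap Qb ↥(modularFunctionFieldBar p) j₁))
    (hxU : 0 < x.ord (mzgpU p - algebraMap Qb ↥(modularFunctionFieldBar p) U₁)) (σ : GQ) :
    arithmeticGalois (modularFunctionFieldFull p) σ • x = x := by
  symm
  refine mzgn_unique_of_simple (modPsiK p hp Qb) (mzgn_modPsi_eval p hp) hsimple (mzgn_gen p hp)
    x _ hxj hxU ?_ ?_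
  · rw [← mzgn_smul_sub_const p σ (tbJ p) (mzgn_smul_tbJ p σ) j₁ (hj σ), SemilinearAut.ord_smul]
    exact hxj
  · rw [← mzgn_smul_sub_const p σ (mzgpU p) (mzgn_smul_U p σ) U₁ (hU σ), SemilinearAut.ord_smul]
    exact hxU

end Galois

end Fermat.Agent.Mazur
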